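/-
S29 / DESC (helper152) — `desc_main` specialised to the function field of `X₀(N)`:
`F₀ = modularFunctionFieldFull N`, `j₀ = jq`, degree bound `ψ(N)` (landed `S28.H988`).

`desc_X0` : for algebraically closed `K ⊆ Ω` of characteristic `0`, `f ∈ Ω(X₀(N))` with a `p`-th
root `h` in `Ω((q))` whose class modulo `p`-th powers has a finite `Aut(Ω/K)`-orbit: there is
`g ∈ Ω(X₀(N))ˣ` with `h·g` integral over `Ω[j]`, of bounded pole order at `∞`, with coefficients in
`K`, and `f·g^p ∈ K(X₀(N))`.
-/
import Mathlib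
import Fermat.Agent.S29.H152.DescMain
import Fermat.Agent.S28.H988.Degree
import Fermat.Agent.S28.H739.TowerLower

set_option autoImplicit false

namespace Fermat.Agent.S29.H152

open ModularCurve Polynomial

theorem descX0_order_jq : (jq : LaurentSeries ℚ).order = -1 := by
  apply le_antisymm
  · apply HahnSeries.order_le_of_coeff_ne_zero
    rw [coeff_jq_neg_one]
    exact one_ne_zero
  · rw [HahnSeries.le_order_iff_forall jq_ne_zero]
    intro k hk
    exact coeff_jq_of_lt hk

theorem descX0_coeffEmb_jq (L : Type*) [Field L] [Algebra ℚ L] : coeffEmb L jq = jqModC L := by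
  rw [← jqModC_rat, coeffEmb, coeffMap_jqModC]

/-- Bounded degree over a subfield of finite relative degree. -/
theorem descX0_isIntegral_of_relfinrank {k E : Type*} [Field k] [Field E] [Algebra k E]
    (A B : IntermediateField k E) (hAB : A ≤ B) (hpos : 0 < A.relfinrank B) (u : E)
    (hu : u ∈ B) : IsIntegral A u ∧ (minpoly A u).natDegree ≤ A.relfinrank B := by
  rw [IntermediateField.relfinrank_eq_finrank_of_le hAB] at hpos ⊢
  have : Module.Finite A (IntermediateField.extendScalars hAB) :=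
    Module.finite_of_finrank_pos hpos
  have hu' : u ∈ IntermediateField.extendScalars hAB := hu
  set v : IntermediateField.extendScalars hAB := ⟨u, hu'⟩ with hv
  have hint : IsIntegral A v := IsIntegral.of_finite A v
  have hmin : minpoly A u = minpoly A v :=
    (IntermediateField.minpoly_eq v).symm
  refine ⟨?_, ?_⟩
  · have h := hint.map (IntermediateField.val (IntermediateField.extendScalars hAB))
    simpa [hv] using h
  · rw [hmin]
    exact minpoly.natDegree_le v

variable {K Ω : Type*} [Field K] [Field Ω] [Algebra K Ω]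
variable [IsAlgClosed K] [IsAlgClosed Ω] [CharZero Ω] [Algebra ℚ K] [Algebra ℚ Ω]

omit [IsAlgClosed Ω] in
/-- The degree hypothesis of `desc_main` for `X₀(N)`. -/
theorem descX0_hdeg (N : ℕ) [NeZero N] (u : LaurentSeries Ω)
    (hu : u ∈ laurentBaseChange Ω (modularFunctionFieldFull N)) :
    IsIntegral (IntermediateField.adjoin Ω {coeffEmb Ω jq}) u ∧
      (minpoly (IntermediateField.adjoin Ω {coeffEmb Ω jq}) u).natDegree ≤ dedekindPsi N := by
  have hN : N ≠ 0 := NeZero.ne N
  have hchar : ∀ p : ℕ, p.Prime → p ∣ N → ((p : ℕ) : Ω) ≠ 0 :=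
    fun p hp _ => Nat.cast_ne_zero.mpr hp.ne_zero
  have hrel := Fermat.Agent.S28.H988.relfinrank_jField_full_eq Ω N hN hchar
  have hpos : 0 < (Fermat.Agent.S28.jField Ω).relfinrank (modularFunctionFieldFullC Ω N) := by
    rw [hrel]
    exact Fermat.Agent.S28.H988.dedekindPsi_pos N hN
  have hle : Fermat.Agent.S28.jField Ω ≤ modularFunctionFieldFullC Ω N :=
    Fermat.Agent.S28.H739.jField_le_full N
  rw [Fermat.Agent.S28.H988.laurentBaseChange_full_eq_fullC] at hu
  have h := descX0_isIntegral_of_relfinrank _ _ hle hpos u hu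
  rw [hrel] at h
  rw [descX0_coeffEmb_jq]
  exact h

/-- **DESCENT of Kummer classes** on `X₀(N)` from `Ω` to `K`. -/
theorem desc_X0 (N : ℕ) [NeZero N] (p : ℕ) (hp : 0 < p) (f h : LaurentSeries Ω)
    (hf : f ∈ laurentBaseChange Ω (modularFunctionFieldFull N)) (hf0 : f ≠ 0) (hh : h ^ p = f)
    (T : Set (LaurentSeries Ω)) (hT : T.Finite)
    (horb : ∀ σ : Ω ≃ₐ[K] Ω, ∃ t ∈ T, ∃ u ∈ laurentBaseChange Ω (modularFunctionFieldFull N),
      u ≠ 0 ∧ coeffMap (σ : Ω →+* Ω) f = t * u ^ p) :
    ∃ g ∈ laurentBaseChange Ω (modularFunctionFieldFull N), g ≠ 0 ∧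
      IsIntegral (Algebra.adjoin Ω {coeffEmb Ω jq}) (h * g) ∧
      (∃ m : ℕ, IsIntegral (Algebra.adjoin Ω {(coeffEmb Ω jq)⁻¹})
        (h * g * (coeffEmb Ω jq)⁻¹ ^ m)) ∧
      (∃ v' : LaurentSeries K, h * g = coeffMap (algebraMap K Ω) v') ∧
      ∃ f' ∈ laurentBaseChange K (modularFunctionFieldFull N),
        f * g ^ p = coeffMap (algebraMap K Ω) f' :=
  desc_main (modularFunctionFieldFull N) jq (modularFunctionField_le_full N (jq_mem N))
    descX0_order_jq (dedekindPsi N) (descX0_hdeg N) p hp f h hf hf0 hh T hT horb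

end Fermat.Agent.S29.H152
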