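/-
S29 / K3-REAL (helper152) — the ring of holomorphic functions on `ℍ` is integrally closed in its
fraction field (landed `S24.H624`: `holoRing`, `MerH`, `laurentAt`, `exists_holo_of_ordM_nonneg`).

* `realClosed_transfer` : for injective `f : S → K`, `g : S → L` into fields, a polynomial relation
  `p (f r / f s) = 0` transfers to `p (g r / g s) = 0`.
* `realClosed_exists_holo` : `F ∈ MerH` integral over `holoRing` is holomorphic.
* `realClosed_exists_quot` : `G, B` holomorphic, `B ≠ 0`, `G / B` a root of a monic polynomial `P`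
  with holomorphic coefficients ⟹ `G = W * B` with `W` holomorphic and `P(W) = 0`.
* `realClosed_exists_root` : `A, B, W` holomorphic, `B ≠ 0`, `A ^ p = W * B ^ p` ⟹ `A = V * B` with
  `V` holomorphic, `V ^ p = W`.
-/
import Mathlib
import Fermat.Agent.S24.H624.Regular

set_option autoImplicit false

namespace Fermat.Agent.S29.H152

open Fermat.Agent.S24.H624 UpperHalfPlane Polynomial

/-- A nonzero element of a ring embedded in a field is a non-zero-divisor. -/
theorem realClosed_mem_nonZeroDivisors {S K : Type*} [CommRing S] [Field K] (f : S →+* K)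
    (hf : Function.Injective f) {s : S} (hs : s ≠ 0) : s ∈ nonZeroDivisors S := by
  rw [mem_nonZeroDivisors_iff_right]
  intro a ha
  have h1 : f a * f s = 0 := by rw [← map_mul, ha, map_zero]
  have hs' : f s ≠ 0 := fun h => hs (hf (by rw [h, map_zero]))
  rcases mul_eq_zero.mp h1 with h | h
  · exact hf (by rw [h, map_zero])
  · exact absurd h hs'

/-- A polynomial relation satisfied by a fraction, in terms of `scaleRoots`. -/
theorem realClosed_scaleRoots_iff {S K : Type*} [CommRing S] [Field K] (f : S →+* K)
    (hf : Function.Injective f) (p : S[X]) (r s : S) (hs : s ≠ 0) :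
    eval₂ f (f r / f s) p = 0 ↔ (p.scaleRoots s).eval r = 0 := by
  have hs' : f s ≠ 0 := fun h => hs (hf (by rw [h, map_zero]))
  have h1 : eval₂ f (f r) (p.scaleRoots s) = f s ^ p.natDegree * eval₂ f (f r / f s) p := by
    have := scaleRoots_eval₂_mul (p := p) f (f r / f s) s
    rwa [mul_div_cancel₀ _ hs'] at this
  have h2 : eval₂ f (f r) (p.scaleRoots s) = f ((p.scaleRoots s).eval r) := eval₂_at_apply f r
  constructor
  · intro h
    apply hf
    rw [map_zero, ← h2, h1, h, mul_zero]
  · intro h
    rw [h, map_zero] at h2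
    rw [h2] at h1
    exact (mul_eq_zero.mp h1.symm).resolve_left (pow_ne_zero _ hs')

/-- Transfer of a polynomial relation for a fraction between two fields. -/
theorem realClosed_transfer {S K L : Type*} [CommRing S] [Field K] [Field L] (f : S →+* K)
    (g : S →+* L) (hf : Function.Injective f) (hg : Function.Injective g) (p : S[X]) (r s : S)
    (hs : s ≠ 0) (h : eval₂ f (f r / f s) p = 0) : eval₂ g (g r / g s) p = 0 :=
  (realClosed_scaleRoots_iff g hg p r s hs).mpr ((realClosed_scaleRoots_iff f hf p r s hs).mp h)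

/-- An element of `MerH` integral over `holoRing` has no poles. -/
theorem realClosed_ordM_nonneg {F : MerH} (hF : IsIntegral holoRing F) (τ : ℍ) :
    0 ≤ ordM τ F := by
  obtain ⟨P, hP, hPF⟩ := hF
  have hcomp : (algebraMap (PowerSeries ℂ) (LaurentSeries ℂ)).comp
      (taylorAt τ : holoRing →+* PowerSeries ℂ) = (laurentAt τ).comp (algebraMap holoRing MerH) := by
    ext f : 1
    rw [RingHom.comp_apply, RingHom.comp_apply, laurentAt_algebraMap]
    rfl
  have h1 : IsIntegral (PowerSeries ℂ) (laurentAt τ F) := by
    refine ⟨P.map (taylorAt τ : holoRing →+* PowerSeries ℂ), hP.map _, ?_⟩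
    rw [eval₂_map, hcomp, ← hom_eval₂, hPF, map_zero]
  obtain ⟨φ, hφ⟩ := IsIntegrallyClosed.isIntegral_iff.mp h1
  rw [ordM_def, ← hφ]
  by_cases h0 : (algebraMap (PowerSeries ℂ) (LaurentSeries ℂ)) φ = 0
  · rw [h0, HahnSeries.order_zero]
  · rw [HahnSeries.le_order_iff_forall h0]
    intro k hk
    exact coeff_ofPowerSeries_neg φ hk

/-- `holoRing` is integrally closed in `MerH`. -/
theorem realClosed_exists_holo {F : MerH} (hF : IsIntegral holoRing F) :
    ∃ f : holoRing, algebraMap holoRing MerH f = F :=
  exists_holo_of_ordM_nonneg F (fun τ => realClosed_ordM_nonneg hF τ)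

theorem realClosed_algebraMap_injective :
    Function.Injective (algebraMap holoRing MerH) :=
  IsFractionRing.injective holoRing MerH

/-- A quotient of holomorphic functions which is a root of a monic polynomial with holomorphic
coefficients is holomorphic. -/
theorem realClosed_exists_quot {G B : holoRing} (hB : B ≠ 0) (P : holoRing[X]) (hP : P.Monic)
    (h : (P.scaleRoots B).eval G = 0) : ∃ W : holoRing, W * B = G ∧ P.eval W = 0 := by
  have hinj := realClosed_algebraMap_injective
  have hB' : algebraMap holoRing MerH B ≠ 0 := fun h0 => hB (hinj (by rw [h0, map_zero]))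
  have hF : eval₂ (algebraMap holoRing MerH)
      (algebraMap holoRing MerH G / algebraMap holoRing MerH B) P = 0 :=
    (realClosed_scaleRoots_iff _ hinj P G B hB).mpr h
  obtain ⟨W, hW⟩ := realClosed_exists_holo ⟨P, hP, hF⟩
  refine ⟨W, ?_, ?_⟩
  · apply hinj
    rw [map_mul, hW, div_mul_cancel₀ _ hB']
  · apply hinj
    rw [map_zero, ← eval₂_at_apply, hW]
    exact hF

/-- `p`-th roots: if `A ^ p = W * B ^ p` with `A, B, W` holomorphic, `B ≠ 0`, `p ≠ 0`, then
`A = V * B` with `V` holomorphic and `V ^ p = W`. -/
theorem realClosed_exists_root {A B W : holoRing} (hB : B ≠ 0) {p : ℕ} (hp : p ≠ 0)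
    (h : A ^ p = W * B ^ p) : ∃ V : holoRing, V * B = A ∧ V ^ p = W := by
  have hinj := realClosed_algebraMap_injective
  have hB' : algebraMap holoRing MerH B ≠ 0 := fun h0 => hB (hinj (by rw [h0, map_zero]))
  set Q : MerH := algebraMap holoRing MerH A / algebraMap holoRing MerH B with hQ
  have hQp : Q ^ p = algebraMap holoRing MerH W := by
    rw [hQ, div_pow, ← map_pow, h, map_mul, map_pow, mul_div_assoc, div_self (pow_ne_zero _ hB'),
      mul_one]
  have hint : IsIntegral holoRing Q := by
    refine IsIntegral.of_pow (Nat.pos_of_ne_zero hp) ?_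
    rw [hQp]
    exact isIntegral_algebraMap
  obtain ⟨V, hV⟩ := realClosed_exists_holo hint
  refine ⟨V, ?_, ?_⟩
  · apply hinj
    rw [map_mul, hV, hQ, div_mul_cancel₀ _ hB']
  · apply hinj
    rw [map_pow, hV, hQp]

end Fermat.Agent.S29.H152
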