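/-
S29 / K3-REAL (helper152) — growth of integral elements and the "good" quotient.

* `realGrowth_norm_root_le` : Cauchy's bound for the roots of a monic complex polynomial.
* `realGrowth_of_monic` : a root `W` (in `ℍ → ℂ`) of a monic polynomial whose coefficients have
  translates of exponential growth has translates of exponential growth.
* `realGrowth_exists_quot` : **the good ring is integrally closed**: `G, B` good, `B ≠ 0`, `G / B`
  a root of a monic polynomial with good coefficients ⟹ `G = W * B` with `W` good.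
* `realGrowth_exists_root` : `A, B` holomorphic, `W` good ... `A ^ p = W * B ^ p` ⟹ `A = V * B`.
-/
import Mathlib
import Fermat.Agent.S24.Deg.H648Conj
import Fermat.Agent.S24.H624.SL2Z
import Fermat.Agent.S29.H152.RealClosed

set_option autoImplicit false

namespace Fermat.Agent.S29.H152

open Fermat.Agent.S24.H624 Fermat.Agent.S24.H648 UpperHalfPlane Polynomial CongruenceSubgroup
open scoped MatrixGroups Manifold Real

/-- Cauchy's bound for the roots of a monic polynomial. -/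
theorem realGrowth_norm_root_le {P : ℂ[X]} (hP : P.Monic) {x : ℂ} (hx : P.eval x = 0) :
    ‖x‖ ≤ 1 + ∑ i ∈ Finset.range P.natDegree, ‖P.coeff i‖ := by
  have h := Polynomial.IsRoot.norm_lt_cauchyBound hP.ne_zero (a := x) hx
  have hsup : Finset.sup (Finset.range P.natDegree) (fun i => ‖P.coeff i‖₊)
      ≤ ∑ i ∈ Finset.range P.natDegree, ‖P.coeff i‖₊ :=
    Finset.sup_le fun i hi =>
      Finset.single_le_sum (f := fun i => ‖P.coeff i‖₊) (fun _ _ => zero_le) hi
  have h2 : ‖x‖₊ ≤ 1 + ∑ i ∈ Finset.range P.natDegree, ‖P.coeff i‖₊ := by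
    refine h.le.trans ?_
    rw [Polynomial.cauchyBound, hP.leadingCoeff, nnnorm_one, div_one, add_comm]
    exact add_le_add_right hsup 1
  have h3 := NNReal.coe_le_coe.mpr h2
  push_cast at h3
  exact h3

theorem realGrowth_of_norm_le {f F : ℍ → ℂ} (hf : ExpGrowth f) (h : ∀ τ, ‖F τ‖ ≤ ‖f τ‖) :
    ExpGrowth F := by
  obtain ⟨C, m, hC⟩ := hf
  exact ⟨C, m, fun τ hτ => (h τ).trans (hC τ hτ)⟩

theorem realGrowth_norm {f : ℍ → ℂ} (hf : ExpGrowth f) :
    ExpGrowth (fun τ => ((‖f τ‖ : ℝ) : ℂ)) := by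
  refine realGrowth_of_norm_le hf fun τ => ?_
  rw [Complex.norm_real, norm_norm]

theorem realGrowth_sum {ι : Type*} (s : Finset ι) (f : ι → ℍ → ℂ)
    (hf : ∀ i ∈ s, ExpGrowth (f i)) : ExpGrowth (∑ i ∈ s, f i) := by
  classical
  induction s using Finset.induction_on with
  | empty =>
    rw [Finset.sum_empty]
    exact expGrowth_const 0
  | insert a s ha ih =>
    rw [Finset.sum_insert ha]
    exact (hf a (Finset.mem_insert_self a s)).add
      (ih fun i hi => hf i (Finset.mem_insert_of_mem hi))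

theorem realGrowth_of_le_sum {ι : Type*} (s : Finset ι) (f : ι → ℍ → ℂ)
    (hf : ∀ i ∈ s, ExpGrowth (f i)) {F : ℍ → ℂ}
    (hF : ∀ τ, ‖F τ‖ ≤ 1 + ∑ i ∈ s, ‖f i τ‖) : ExpGrowth F := by
  have h1 : ExpGrowth ((fun _ => (1 : ℂ)) + ∑ i ∈ s, fun τ => ((‖f i τ‖ : ℝ) : ℂ)) :=
    (expGrowth_const 1).add (realGrowth_sum s _ fun i hi => realGrowth_norm (hf i hi))
  refine realGrowth_of_norm_le h1 fun τ => ?_
  have h2 : (((fun _ => (1 : ℂ)) + ∑ i ∈ s, fun τ => ((‖f i τ‖ : ℝ) : ℂ)) : ℍ → ℂ) τ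
      = (((1 + ∑ i ∈ s, ‖f i τ‖ : ℝ)) : ℂ) := by
    rw [Pi.add_apply, Finset.sum_apply]
    push_cast
    rfl
  rw [h2, Complex.norm_real, Real.norm_of_nonneg]
  · exact hF τ
  · have : 0 ≤ ∑ i ∈ s, ‖f i τ‖ := Finset.sum_nonneg fun i _ => norm_nonneg _
    linarith

/-- A root of a monic polynomial whose coefficients have exponential growth (after translation by
`g`) has exponential growth (after translation by `g`). -/
theorem realGrowth_of_monic (P : Polynomial (ℍ → ℂ)) (hP : P.Monic) (g : SL(2, ℤ))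
    (hc : ∀ i, ExpGrowth (fun τ => P.coeff i (g • τ))) {W : ℍ → ℂ} (hW : P.eval W = 0) :
    ExpGrowth (fun τ => W (g • τ)) := by
  refine realGrowth_of_le_sum (Finset.range P.natDegree) (fun i τ => P.coeff i (g • τ))
    (fun i _ => hc i) fun τ => ?_
  set ev : (ℍ → ℂ) →+* ℂ := Pi.evalRingHom (fun _ : ℍ => ℂ) (g • τ) with hev
  have hm : (P.map ev).Monic := hP.map ev
  have hroot : (P.map ev).eval (W (g • τ)) = 0 := by
    have h1 : ev W = W (g • τ) := rfl
    rw [← h1, eval_map, eval₂_at_apply, hW, map_zero]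
  have h := realGrowth_norm_root_le hm hroot
  rw [hP.natDegree_map ev] at h
  refine h.trans (le_of_eq ?_)
  congr 1
  refine Finset.sum_congr rfl fun i _ => ?_
  rw [coeff_map]
  rfl

theorem realGrowth_goodRing_le_holoRing (N : ℕ) : goodRing N ≤ holoRing :=
  fun _ hf => hf.1

/-- **The good ring is integrally closed** (in the field of quotients of holomorphic functions). -/
theorem realGrowth_exists_quot (N : ℕ) {G B : ℍ → ℂ} (hG : G ∈ goodRing N)
    (hB : B ∈ goodRing N) (hB0 : B ≠ 0) (P : Polynomial (ℍ → ℂ)) (hP : P.Monic)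
    (hc : ∀ i, P.coeff i ∈ goodRing N) (h : (P.scaleRoots B).eval G = 0) :
    ∃ W ∈ goodRing N, W * B = G ∧ P.eval W = 0 := by
  have hl : P ∈ Polynomial.lifts (algebraMap holoRing (ℍ → ℂ)) := by
    rw [Polynomial.lifts_iff_coeff_lifts]
    intro n
    exact ⟨⟨P.coeff n, (hc n).1⟩, rfl⟩
  obtain ⟨P', hP', -, hP'm⟩ := Polynomial.lifts_and_natDegree_eq_and_monic hl hP
  have hval : Function.Injective (algebraMap holoRing (ℍ → ℂ)) := Subtype.val_injective
  set G' : holoRing := ⟨G, hG.1⟩ with hG'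
  set B' : holoRing := ⟨B, hB.1⟩ with hB'
  have hB'0 : B' ≠ 0 := fun h0 => hB0 (congrArg Subtype.val h0)
  have h' : (P'.scaleRoots B').eval G' = 0 := by
    apply hval
    rw [map_zero, ← eval₂_at_apply, ← eval_map, map_scaleRoots, hP']
    · exact h
    · rw [hP'm.leadingCoeff, map_one]
      exact one_ne_zero
  obtain ⟨W', hWB, hPW⟩ := realClosed_exists_quot hB'0 P' hP'm h'
  have hWB' : (W' : ℍ → ℂ) * B = G := congrArg Subtype.val hWB
  have hPW' : P.eval (W' : ℍ → ℂ) = 0 := by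
    have := congrArg (algebraMap holoRing (ℍ → ℂ)) hPW
    rw [map_zero, ← eval₂_at_apply, ← eval_map, hP'] at this
    exact this
  refine ⟨W', ⟨W'.2, fun γ hγ τ => ?_, fun g => ?_⟩, hWB', hPW'⟩
  · -- invariance
    have h1 : (precompSL γ W' - W') * B' = 0 := by
      ext z
      have e1 : ((precompSL γ W' - W') * B' : holoRing).1 z
          = (W' : ℍ → ℂ) (γ • z) * B z - (W' : ℍ → ℂ) z * B z := by
        show ((W' : ℍ → ℂ) (γ • z) - (W' : ℍ → ℂ) z) * B z = _
        ring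
      rw [e1]
      have e2 : (W' : ℍ → ℂ) (γ • z) * B (γ • z) = G (γ • z) := congrFun hWB' (γ • z)
      have e3 : (W' : ℍ → ℂ) z * B z = G z := congrFun hWB' z
      rw [e3, ← hG.2.1 γ hγ z, ← e2, hB.2.1 γ hγ z, sub_self]
      rfl
    rcases mul_eq_zero.mp h1 with h2 | h2
    · have h3 : ((precompSL γ W' - W' : holoRing) : ℍ → ℂ) τ = (0 : ℍ → ℂ) τ := by
        rw [h2]
        rfl
      have e : ((precompSL γ W' - W' : holoRing) : ℍ → ℂ) τ
          = (W' : ℍ → ℂ) (γ • τ) - (W' : ℍ → ℂ) τ := rfl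
      rw [e] at h3
      exact sub_eq_zero.mp h3
    · exact absurd h2 hB'0
  · exact realGrowth_of_monic P hP g (fun i => (hc i).2.2 g) hPW'

/-- `p`-th roots of good functions among quotients of holomorphic functions. -/
theorem realGrowth_exists_root {A B W : ℍ → ℂ} (hA : MDifferentiable 𝓘(ℂ) 𝓘(ℂ) A)
    (hB : MDifferentiable 𝓘(ℂ) 𝓘(ℂ) B) (hW : MDifferentiable 𝓘(ℂ) 𝓘(ℂ) W) (hB0 : B ≠ 0)
    {p : ℕ} (hp : p ≠ 0) (h : A ^ p = W * B ^ p) :
    ∃ V : ℍ → ℂ, MDifferentiable 𝓘(ℂ) 𝓘(ℂ) V ∧ V * B = A ∧ V ^ p = W := by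
  have hB'0 : (⟨B, hB⟩ : holoRing) ≠ 0 := fun h0 => hB0 (congrArg Subtype.val h0)
  have h' : (⟨A, hA⟩ : holoRing) ^ p = ⟨W, hW⟩ * ⟨B, hB⟩ ^ p := Subtype.ext h
  obtain ⟨V, hV1, hV2⟩ := realClosed_exists_root hB'0 hp h'
  exact ⟨V, V.2, congrArg Subtype.val hV1, congrArg Subtype.val hV2⟩

end Fermat.Agent.S29.H152
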