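/-
S29 / K3-REAL (helper152) — `q`-expansion side: the algebra `goodQ N` of `q`-expansions of good
functions is integrally closed in its field of fractions.

* `realQ_hom N : goodRing N →ₐ[ℂ] ℂ((q))` — the `q`-expansion, an injective algebra map with range
  `goodQ N`.
* `realQ_exists_good` : `w = a / b` with `a, b ∈ goodQ N` integral over `goodQ N` ⟹ `w` is the
  `q`-expansion of a good function.
* `realQ_exists_good_of_FC` : every element of `F_ℂ = ℂ(X₀(N))` integral over `ℂ[j]` is the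
  `q`-expansion of a good function.
-/
import Mathlib
import Fermat.Agent.S29.M4b.Defs
import Fermat.Agent.S29.H882.MeroMain
import Fermat.Agent.S29.H152.DescInt
import Fermat.Agent.S29.H152.RealGrowth

set_option autoImplicit false

noncomputable section

namespace Fermat.Agent.S29.H152

open ModularCurve UpperHalfPlane Polynomial CongruenceSubgroup
open Fermat.Agent.S24 Fermat.Agent.S24.H648 Fermat.Agent.S24.H708 Fermat.Agent.S24.Deg457
open Fermat.Agent.S29 Fermat.Agent.S29.H882
open scoped MatrixGroups Manifold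

variable (N : ℕ)

theorem realQ_goodRing_le_merInf : goodRing N ≤ merInf 1 :=
  fun _ hf => isMerInf_of_mem_goodRing hf

/-- The `q`-expansion at `i∞` as an algebra map on the good ring. -/
def realQ_hom : goodRing N →ₐ[ℂ] LaurentSeries ℂ :=
  (qexpInf 1).comp (Subalgebra.inclusion (realQ_goodRing_le_merInf N))

theorem realQ_hom_apply (f : goodRing N) : realQ_hom N f = qexpFun 1 (f : ℍ → ℂ) := rfl

theorem realQ_hom_injective : Function.Injective (realQ_hom N) :=
  (qexpInf_injective 1).comp (Subalgebra.inclusion_injective (realQ_goodRing_le_merInf N))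

theorem realQ_mem_goodQ_iff {b : LaurentSeries ℂ} :
    b ∈ goodQ N ↔ ∃ f : goodRing N, realQ_hom N f = b := by
  constructor
  · rintro ⟨f, hf, hfb⟩
    exact ⟨⟨f, hf⟩, hfb.2⟩
  · rintro ⟨f, rfl⟩
    exact qexpFun_mem_goodQ f.2

/-- **`goodQ N` is integrally closed**: a fraction of `q`-expansions of good functions which is
integral over `goodQ N` is the `q`-expansion of a good function. -/
theorem realQ_exists_good {a b w : LaurentSeries ℂ} (ha : a ∈ goodQ N) (hb : b ∈ goodQ N)
    (hb0 : b ≠ 0) (hw : w * b = a) (hint : IsIntegral (goodQ N) w) :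
    ∃ W ∈ goodRing N, qexpFun 1 W = w := by
  obtain ⟨A, rfl⟩ := (realQ_mem_goodQ_iff N).mp ha
  obtain ⟨B, rfl⟩ := (realQ_mem_goodQ_iff N).mp hb
  have hB0 : B ≠ 0 := by
    rintro rfl
    exact hb0 (map_zero _)
  have hwdiv : w = realQ_hom N A / realQ_hom N B := by
    rw [← hw, mul_div_assoc, div_self hb0, mul_one]
  obtain ⟨Q, hQ, hQc, hQw⟩ := descInt_exists_poly (goodQ N) hint
  have hl : Q ∈ Polynomial.lifts (realQ_hom N : goodRing N →+* LaurentSeries ℂ) := by
    rw [Polynomial.lifts_iff_coeff_lifts]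
    intro n
    obtain ⟨f, hf⟩ := (realQ_mem_goodQ_iff N).mp (hQc n)
    exact ⟨f, hf⟩
  obtain ⟨P₀, hP₀, -, hP₀m⟩ := Polynomial.lifts_and_natDegree_eq_and_monic hl hQ
  have h1 : eval₂ (realQ_hom N : goodRing N →+* LaurentSeries ℂ)
      ((realQ_hom N : goodRing N →+* LaurentSeries ℂ) A /
        (realQ_hom N : goodRing N →+* LaurentSeries ℂ) B) P₀ = 0 := by
    rw [← eval_map, hP₀]
    have : ((realQ_hom N : goodRing N →+* LaurentSeries ℂ) A /
        (realQ_hom N : goodRing N →+* LaurentSeries ℂ) B) = w := hwdiv.symm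
    rw [this]
    exact hQw
  have h2 : (P₀.scaleRoots B).eval A = 0 :=
    (realClosed_scaleRoots_iff _ (realQ_hom_injective N) P₀ A B hB0).mp h1
  set P : Polynomial (ℍ → ℂ) := P₀.map (algebraMap (goodRing N) (ℍ → ℂ)) with hPdef
  have hPm : P.Monic := hP₀m.map _
  have hPc : ∀ i, P.coeff i ∈ goodRing N := fun i => by
    rw [hPdef, coeff_map]
    exact (P₀.coeff i).2
  have hB0' : (B : ℍ → ℂ) ≠ 0 := fun h0 => hB0 (Subtype.ext h0)
  have h3 : (P.scaleRoots (B : ℍ → ℂ)).eval (A : ℍ → ℂ) = 0 := by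
    have := congrArg (algebraMap (goodRing N) (ℍ → ℂ)) h2
    rw [map_zero, ← eval₂_at_apply, ← eval_map, map_scaleRoots] at this
    · exact this
    · rw [hP₀m.leadingCoeff, map_one]
      exact one_ne_zero
  obtain ⟨W, hW, hWB, -⟩ := realGrowth_exists_quot N A.2 B.2 hB0' P hPm hPc h3
  refine ⟨W, hW, ?_⟩
  have h4 : realQ_hom N ⟨W, hW⟩ * realQ_hom N B = realQ_hom N A := by
    rw [← map_mul]
    congr 1
    exact Subtype.ext hWB
  rw [hwdiv, eq_div_iff hb0]
  exact h4

variable [NeZero N]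

theorem realQ_adjoin_le_goodQ : Algebra.adjoin ℂ {coeffEmb ℂ jq} ≤ goodQ N := by
  rw [Algebra.adjoin_le_iff, Set.singleton_subset_iff]
  exact JK_mem_goodQ N

theorem realQ_isIntegral_goodQ {w : LaurentSeries ℂ}
    (hw : IsIntegral (Algebra.adjoin ℂ {coeffEmb ℂ jq}) w) : IsIntegral (goodQ N) w := by
  obtain ⟨Q, hQ, hQc, hQw⟩ := descInt_exists_poly _ hw
  exact descInt_isIntegral_of_poly (goodQ N) Q hQ (fun i => realQ_adjoin_le_goodQ N (hQc i)) hQw

/-- Every element of `F_ℂ` is a quotient of `q`-expansions of good functions. -/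
theorem realQ_exists_div {g : LaurentSeries ℂ} (hg : g ∈ FC N) :
    ∃ a ∈ goodQ N, ∃ b ∈ goodQ N, b ≠ 0 ∧ g * b = a := by
  have h1 : g ∈ MC N := FC_le_MC N hg
  rw [MC, IntermediateField.mem_adjoin_iff_div, Algebra.adjoin_eq] at h1
  obtain ⟨r, hr, s, hs, rfl⟩ := h1
  by_cases hs0 : s = 0
  · refine ⟨0, zero_mem _, 1, one_mem _, one_ne_zero, ?_⟩
    rw [hs0, div_zero, zero_mul]
  · exact ⟨r, hr, s, hs, hs0, div_mul_cancel₀ r hs0⟩

/-- Every element of `F_ℂ` integral over `ℂ[j]` is the `q`-expansion of a good function. -/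
theorem realQ_exists_good_of_FC {w : LaurentSeries ℂ} (hw : w ∈ FC N)
    (hint : IsIntegral (Algebra.adjoin ℂ {coeffEmb ℂ jq}) w) :
    ∃ W ∈ goodRing N, qexpFun 1 W = w := by
  obtain ⟨a, ha, b, hb, hb0, hab⟩ := realQ_exists_div N hw
  exact realQ_exists_good N ha hb hb0 hab (realQ_isIntegral_goodQ N hint)

end Fermat.Agent.S29.H152
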