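/-
S29 / K3-REAL (helper152) — the REALISATION step of piece K3 (descent `ℂ → ℚ̄`), and K3 itself
modulo the finiteness of the `Aut(ℂ/ℚ̄)`-orbit.

* `real_main` : `U` twisted of character `c`, `g ∈ F_ℂˣ` with `qexp(U^p) · g^p` integral over
  `ℂ[j]` and equal to the image of `u ∈ FF N = ℚ̄(X₀(N))` ⟹ there is a twisted `U'` of character
  `c` with `U'^p` realising `u`.  (`U' = U · g`, which is holomorphic since its `p`-th power is.)
* `real_K3_of_orbit` : **piece K3 from the finite-orbit property**: `c` parabolic, `U` twisted of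
  character `c`, and a finite set `T` of representatives such that every conjugate
  `σ(qexp(U^p))`, `σ ∈ Aut(ℂ/ℚ̄)`, is `t · u^p` with `t ∈ T`, `u ∈ F_ℂˣ` ⟹ the conclusion of
  `M4b.PieceK3`.
-/
import Mathlib
import Fermat.Agent.S29.M4b.Defs
import Fermat.Agent.S29.H882.MeroPrim
import Fermat.Agent.S29.H152.DescX0
import Fermat.Agent.S29.H152.RealQ

set_option autoImplicit false

noncomputable section

namespace Fermat.Agent.S29.H152

open ModularCurve UpperHalfPlane Polynomial CongruenceSubgroup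
open Fermat.Agent.S24 Fermat.Agent.S24.H624 Fermat.Agent.S24.H648 Fermat.Agent.S24.H708
open Fermat.Agent.S24.Deg457 Fermat.Agent.S29 Fermat.Agent.S29.H882 Fermat.Agent.S29.M4b
open scoped MatrixGroups Manifold Real

variable (N : ℕ) [NeZero N]

/-- **K3-REAL.** -/
theorem real_main (p : ℕ) (hp : p ≠ 0) {c : G0 N → ZMod p} {U : ℍ → ℂ}
    (hU : IsTwisted N p c U) {g : LaurentSeries ℂ} (hg : g ∈ FC N) (hg0 : g ≠ 0)
    (hint : IsIntegral (Algebra.adjoin ℂ {coeffEmb ℂ jq})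
      (qexpFun 1 (fun τ => U τ ^ p) * g ^ p))
    (u : FF N)
    (hu : qexpFun 1 (fun τ => U τ ^ p) * g ^ p
      = coeffMap Deg457.iotaC ((u : FF N) : LaurentSeries Kbar)) :
    ∃ U' : ℍ → ℂ, IsTwisted N p c U' ∧ Realises N u (fun τ => U' τ ^ p) := by
  have hUp : (fun τ => U τ ^ p) ∈ goodRing N := hU.pow_mem
  have hUpq := hasQExp_of_mem_goodRing hUp
  set f := qexpFun 1 (fun τ => U τ ^ p) with hf
  have hfFC : f ∈ FC N := qexpFun_mem_FC hUp
  have hwFC : f * g ^ p ∈ FC N := mul_mem hfFC (pow_mem hg p)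
  obtain ⟨W, hW, hWq⟩ := realQ_exists_good_of_FC N hwFC hint
  have hWQ : HasQExp 1 W (f * g ^ p) := ⟨isMerInf_of_mem_goodRing hW, hWq⟩
  obtain ⟨a, ⟨A, hA, hAq⟩, b, ⟨B, hB, hBq⟩, hb0, hab⟩ := realQ_exists_div N hg
  have hB0 : B ≠ 0 := fun h0 => hb0 ((hBq.eq_zero_iff).mpr h0)
  have ha0 : a ≠ 0 := by
    rw [← hab]
    exact mul_ne_zero hg0 hb0
  have hA0 : A ≠ 0 := fun h0 => ha0 ((hAq.eq_zero_iff).mpr h0)
  have hU0 : U ≠ 0 := by
    obtain ⟨τ, hτ⟩ := hU.ne_zero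
    intro h0
    exact hτ (congrFun h0 τ)
  -- the two sides of `(U A)^p = W B^p` have the same `q`-expansion
  have h1 : HasQExp 1 ((U * A) ^ p) (f * a ^ p) := by
    have e : (U * A) ^ p = (fun τ => U τ ^ p) * A ^ p := by
      rw [mul_pow]
      rfl
    rw [e]
    exact hUpq.mul (hAq.pow p)
  have h2 : HasQExp 1 (W * B ^ p) (f * a ^ p) := by
    have e : f * a ^ p = f * g ^ p * b ^ p := by
      rw [← hab, mul_pow, mul_assoc]
    rw [e]
    exact hWQ.mul (hBq.pow p)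
  have h3 : (U * A) ^ p = W * B ^ p := h1.eq_of_eq h2
  obtain ⟨V, hV, hVB, hVp⟩ := realGrowth_exists_root (hU.mdiff.mul hA.1) hB.1 hW.1 hB0 hp h3
  have hV0 : V ≠ 0 := by
    rintro rfl
    rw [zero_mul] at hVB
    rcases mul_eq_zero_of_mdiff hU.mdiff hA.1 hVB.symm with h | h
    · exact hU0 h
    · exact hA0 h
  have hVpow : (fun τ => V τ ^ p) = W := hVp
  refine ⟨V, ⟨hV, Function.ne_iff.mp hV0, fun γ τ => ?_, ?_⟩, ?_, ?_⟩
  · -- character
    set ζ := zetaP p ^ (c γ).val with hζ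
    have hVγ : MDifferentiable 𝓘(ℂ) 𝓘(ℂ) (fun z : ℍ => V ((γ : SL(2, ℤ)) • z)) :=
      (precompSL (γ : SL(2, ℤ)) ⟨V, hV⟩).2
    have hD : MDifferentiable 𝓘(ℂ) 𝓘(ℂ) ((fun z : ℍ => V ((γ : SL(2, ℤ)) • z)) - ζ • V) :=
      hVγ.sub (hV.const_smul ζ)
    have hDB : ((fun z : ℍ => V ((γ : SL(2, ℤ)) • z)) - ζ • V) * B = 0 := by
      funext z
      have e1 : V ((γ : SL(2, ℤ)) • z) * B ((γ : SL(2, ℤ)) • z)
          = U ((γ : SL(2, ℤ)) • z) * A ((γ : SL(2, ℤ)) • z) := congrFun hVB _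
      have e2 : V z * B z = U z * A z := congrFun hVB z
      have e3 : B ((γ : SL(2, ℤ)) • z) = B z := hB.2.1 _ γ.2 z
      have e4 : A ((γ : SL(2, ℤ)) • z) = A z := hA.2.1 _ γ.2 z
      have e5 : U ((γ : SL(2, ℤ)) • z) = ζ * U z := hU.hasChar γ z
      rw [e3, e4, e5] at e1
      show (V ((γ : SL(2, ℤ)) • z) - ζ * V z) * B z = 0
      rw [sub_mul, e1, mul_assoc, mul_assoc, e2, sub_self]
    rcases mul_eq_zero_of_mdiff hD hB.1 hDB with h | h
    · have := congrFun h τ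
      exact sub_eq_zero.mp this
    · exact absurd h hB0
  · rw [hVpow]
    exact hW
  · rw [hVpow]
    exact hW
  · rw [hVpow, hWq]
    exact hu

end Fermat.Agent.S29.H152
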