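/-
S29 / K3 (helper152) — **piece K3 (descent `ℂ → ℚ̄`) from the finite-orbit property**.

`real_K3_of_orbit` : let `c` be a parabolic character, `U` a twisted function of character `c`,
`f = qexp(U^p) ∈ F_ℂ = ℂ(X₀(N))`.  If there is a FINITE set `T ⊆ ℂ((q))` such that for every
automorphism `σ` of `ℂ` fixing `ℚ̄` the conjugate `σ(f)` is `t · u^p` with `t ∈ T`, `u ∈ F_ℂˣ`
(i.e. the `Aut(ℂ/ℚ̄)`-orbit of the Kummer class of `f` is finite), then there are a twisted `U'`
of character `c` and `u ∈ FF N = ℚ̄(X₀(N))` with `U'^p` realising `u`: the conclusion of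
`M4b.PieceK3`.

Proof: `desc_X0` (descent, `H152/DescMain`) + `real_main` (realisation, `H152/Real`).
-/
import Mathlib
import Fermat.Agent.S29.H152.Real

set_option autoImplicit false

noncomputable section

namespace Fermat.Agent.S29.H152

open ModularCurve UpperHalfPlane Polynomial CongruenceSubgroup
open Fermat.Agent.S24 Fermat.Agent.S24.H624 Fermat.Agent.S24.H648 Fermat.Agent.S24.H708
open Fermat.Agent.S24.Deg457 Fermat.Agent.S29 Fermat.Agent.S29.H882 Fermat.Agent.S29.M4b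
open scoped MatrixGroups Manifold Real

/-- A function whose `p`-th power has at most exponential growth has at most exponential
growth. -/
theorem realK3_expGrowth_of_pow {F : ℍ → ℂ} {p : ℕ} (hp : p ≠ 0)
    (h : ExpGrowth (fun τ => F τ ^ p)) : ExpGrowth F := by
  obtain ⟨C, m, hC⟩ := h
  refine ⟨1 + |C|, m, fun τ hτ => ?_⟩
  have h1 := hC τ hτ
  rw [norm_pow] at h1
  have hexp : 1 ≤ Real.exp (2 * π * m * τ.im) := by
    apply Real.one_le_exp
    have := τ.im_pos
    have := Real.pi_pos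
    positivity
  have hC0 : 0 ≤ |C| := abs_nonneg C
  by_cases hle : ‖F τ‖ ≤ 1
  · calc ‖F τ‖ ≤ 1 := hle
      _ ≤ (1 + |C|) * Real.exp (2 * π * m * τ.im) := by nlinarith
  · have hle' : 1 ≤ ‖F τ‖ := (not_le.mp hle).le
    have h2 : ‖F τ‖ ≤ ‖F τ‖ ^ p := le_self_pow₀ hle' hp
    calc ‖F τ‖ ≤ ‖F τ‖ ^ p := h2
      _ ≤ C * Real.exp (2 * π * m * τ.im) := h1
      _ ≤ (1 + |C|) * Real.exp (2 * π * m * τ.im) := by
          have := le_abs_self C
          have := Real.exp_pos (2 * π * m * τ.im)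
          nlinarith

variable (N : ℕ) [NeZero N]

omit [NeZero N] in
/-- A twisted function of parabolic character is `1`-periodic and meromorphic at `i∞`. -/
theorem realK3_isMerInf {p : ℕ} (hp : p ≠ 0) {c : G0 N → ZMod p} (hc : IsParHom c) {U : ℍ → ℂ}
    (hU : IsTwisted N p c U) : IsMerInf 1 U := by
  refine ⟨hU.mdiff, ?_, ?_⟩
  · -- periodicity
    have hT : c ⟨ModularGroup.T, T_mem_Gamma0 N⟩ = 0 := by
      apply hc.parabolic
      left
      show Matrix.trace ((ModularGroup.T : SL(2, ℤ)) : Matrix (Fin 2) (Fin 2) ℤ) = 2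
      rw [Matrix.trace_fin_two]
      simp [ModularGroup.T]
    have hinv : ∀ τ : ℍ, U (ModularGroup.T • τ) = U τ := by
      intro τ
      have h := hU.hasChar ⟨ModularGroup.T, T_mem_Gamma0 N⟩ τ
      rw [hT] at h
      simpa using h
    have hper : Function.Periodic (U ∘ ofComplex) (1 : ℝ) := by
      intro w
      by_cases hw : 0 < Complex.im w
      · have hw' : 0 < Complex.im (w + ((1 : ℝ) : ℂ)) := by simpa using hw
        simp only [Function.comp_apply, ofComplex_apply_of_im_pos hw',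
          ofComplex_apply_of_im_pos hw]
        have h := hinv ⟨w, hw⟩
        rw [← h]
        congr 1
        apply UpperHalfPlane.ext
        rw [UpperHalfPlane.modular_T_smul, UpperHalfPlane.coe_vadd]
        simp [add_comm]
      · have hw0 : Complex.im w ≤ 0 := not_lt.mp hw
        have hw' : Complex.im (w + ((1 : ℝ) : ℂ)) ≤ 0 := by simpa using hw0
        simp only [Function.comp_apply]
        rw [ofComplex_apply_of_im_nonpos hw', ofComplex_apply_of_im_nonpos hw0]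
    simpa using hper
  · have h := hU.pow_mem.2.2 1
    simp only [one_smul] at h
    exact isBounded_mul_qh_pow_of_expGrowth (realK3_expGrowth_of_pow hp h)

/-- **Piece K3 from the finite-orbit property.** -/
theorem real_K3_of_orbit (p : ℕ) (hp : p ≠ 0) {c : G0 N → ZMod p} (hc : IsParHom c)
    {U : ℍ → ℂ} (hU : IsTwisted N p c U) (T : Set (LaurentSeries ℂ)) (hT : T.Finite)
    (horb : ∀ σ : ℂ ≃+* ℂ, (∀ x : Kbar, σ (Deg457.iotaC x) = Deg457.iotaC x) →
      ∃ t ∈ T, ∃ u ∈ FC N, u ≠ 0 ∧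
        coeffMap (σ : ℂ →+* ℂ) (qexpFun 1 (fun τ => U τ ^ p)) = t * u ^ p) :
    ∃ (U' : ℍ → ℂ) (u : FF N), IsTwisted N p c U' ∧ Realises N u (fun τ => U' τ ^ p) := by
  let _ : Algebra Kbar ℂ := Deg457.iotaC.toAlgebra
  have hmer := realK3_isMerInf N hp hc hU
  have hq : HasQExp 1 U (qexpFun 1 U) := HasQExp.of_isMerInf hmer
  have hqp : HasQExp 1 (U ^ p) (qexpFun 1 U ^ p) := hq.pow p
  have hh : qexpFun 1 U ^ p = qexpFun 1 (fun τ => U τ ^ p) := hqp.2.symm
  have hUp : (fun τ => U τ ^ p) ∈ goodRing N := hU.pow_mem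
  have hfFC : qexpFun 1 (fun τ => U τ ^ p) ∈ FC N := qexpFun_mem_FC hUp
  have hf0 : qexpFun 1 (fun τ => U τ ^ p) ≠ 0 := by
    intro h0
    have h1 := ((hasQExp_of_mem_goodRing hUp).eq_zero_iff).mp h0
    obtain ⟨τ, hτ⟩ := hU.ne_zero
    exact pow_ne_zero p hτ (congrFun h1 τ)
  have horb' : ∀ σ : ℂ ≃ₐ[Kbar] ℂ, ∃ t ∈ T,
      ∃ u ∈ laurentBaseChange ℂ (modularFunctionFieldFull N), u ≠ 0 ∧
        coeffMap (σ : ℂ →+* ℂ) (qexpFun 1 (fun τ => U τ ^ p)) = t * u ^ p := by
    intro σ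
    exact horb σ.toRingEquiv (fun x => σ.commutes x)
  obtain ⟨g, hg, hg0, hint, -, -, f', hf', hfg⟩ :=
    desc_X0 (K := Kbar) (Ω := ℂ) N p (Nat.pos_of_ne_zero hp) (qexpFun 1 (fun τ => U τ ^ p))
      (qexpFun 1 U) hfFC hf0 hh T hT horb'
  have hint' : IsIntegral (Algebra.adjoin ℂ {coeffEmb ℂ jq})
      (qexpFun 1 (fun τ => U τ ^ p) * g ^ p) := by
    rw [← hh, ← mul_pow]
    exact hint.pow p
  obtain ⟨U', hU', hreal⟩ := real_main N p hp hU hg hg0 hint' ⟨f', hf'⟩ hfg
  exact ⟨U', ⟨f', hf'⟩, hU', hreal⟩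

end Fermat.Agent.S29.H152
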